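import Fermat.Prelude.Def_FLTPrelim_FreyPackage
import Mathlib.Tactic

/-!
# 2-adic arithmetic of a Frey package

`a ≡ 3 mod 4`, `2 ∣ b`, `p ≥ 5` odd: `4 ∣ b^p - 1 - a^p`, `32 ∣ b^p`, `b^p - a^p` is odd.
-/

set_option autoImplicit false

namespace Fermat.Agent.S13.H365

variable (P : FreyPackage)

lemma frey_two_dvd_b : (2 : ℤ) ∣ P.b :=
  (ZMod.intCast_zmod_eq_zero_iff_dvd P.b 2).1 P.hb2

lemma frey_four_dvd_a_sub : (4 : ℤ) ∣ P.a - 3 := by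
  have h : ((P.a - 3 : ℤ) : ZMod 4) = 0 := by
    push_cast
    rw [P.ha4]
    decide
  exact (ZMod.intCast_zmod_eq_zero_iff_dvd _ 4).1 h

lemma frey_a_odd : ¬ (2 : ℤ) ∣ P.a := by
  intro h
  obtain ⟨k, hk⟩ := frey_four_dvd_a_sub P
  obtain ⟨m, hm⟩ := h
  omega

/-- `b ^ p = 32 * m`. -/
lemma frey_exists_b_pow : ∃ m : ℤ, P.b ^ P.p = 32 * m := by
  obtain ⟨c, hc⟩ := frey_two_dvd_b P
  obtain ⟨k, hk⟩ := Nat.exists_eq_add_of_le P.hp5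
  refine ⟨2 ^ k * c ^ P.p, ?_⟩
  rw [hc, mul_pow, hk, pow_add]
  norm_num
  ring

/-- `b ^ p - 1 - a ^ p = 4 * k`. -/
lemma frey_exists_a₂ : ∃ k : ℤ, P.b ^ P.p - 1 - P.a ^ P.p = 4 * k := by
  obtain ⟨m, hm⟩ := frey_exists_b_pow P
  have h : ((P.b ^ P.p - 1 - P.a ^ P.p : ℤ) : ZMod 4) = 0 := by
    have h32 : ((32 : ℤ) : ZMod 4) = 0 := by decide
    have h3 : (3 : ZMod 4) = -1 := by decide
    rw [hm]
    push_cast
    rw [P.ha4, h3, P.hp_odd.neg_one_pow]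
    have : ((32 : ZMod 4)) = 0 := by decide
    rw [this]
    ring
  obtain ⟨k, hk⟩ := (ZMod.intCast_zmod_eq_zero_iff_dvd _ 4).1 h
  exact ⟨k, hk⟩

/-- `b ^ p - a ^ p` is odd. -/
lemma frey_b₂_odd : ¬ (2 : ℤ) ∣ P.b ^ P.p - P.a ^ P.p := by
  intro h
  have hb : (2 : ℤ) ∣ P.b ^ P.p := dvd_pow (frey_two_dvd_b P) P.hp0
  have ha : (2 : ℤ) ∣ P.a ^ P.p := by
    have := dvd_sub hb h
    simpa using this
  exact frey_a_odd P (Int.prime_two.dvd_of_dvd_pow ha)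

end Fermat.Agent.S13.H365
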