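import Fermat.Agent.S13.H365.NodeInertia
import Fermat.Agent.S13.H365.FreyArith
import Fermat.Agent.S05.AssembleFinal
import Fermat.Agent.S05.C1b

/-!
# (T4) for the Frey curve: inertia at `2` acts unipotently on `E[p]`

For every valuation ring `A` of `ℚ̄` over `2` and every `σ` in its inertia group,
`(σ - 1)² = 0` on the `p`-torsion of the Frey curve.
-/

set_option autoImplicit false
set_option linter.unusedSectionVars false
set_option linter.unusedVariables false

namespace Fermat.Agent.S13.H365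

open WeierstrassCurve WeierstrassCurve.Affine WeierstrassCurve.Affine.Point
open Fermat.Agent.S05.SameRed
open Fermat.Agent.S05.Assemble (Qb inertia_res val_int_le_one val_int_lt_one val_int_eq_one
  val_nat_eq_one fA fB frey_a₁ frey_a₂ frey_a₃ frey_a₄ frey_a₆ val_p_eq_one KerTorsionFree
  fA_ne_zero fB_ne_zero sigma_int)

variable (P : FreyPackage)

/-- `a₂` of the Frey curve is an integer. -/
lemma frey_a₂_int : ∃ k : ℤ, (P.freyCurve⁄Qb).a₂ = (k : Qb) := by
  obtain ⟨k, hk⟩ := frey_exists_a₂ P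
  refine ⟨k, ?_⟩
  rw [frey_a₂]
  have h : fB P - 1 - fA P = 4 * (k : Qb) := by
    simp only [fA, fB]
    exact_mod_cast congrArg (Int.cast : ℤ → Qb) hk
  rw [h]
  field_simp

/-- `a₄` of the Frey curve is an even integer. -/
lemma frey_a₄_int : ∃ m : ℤ, (P.freyCurve⁄Qb).a₄ = ((2 * m : ℤ) : Qb) := by
  obtain ⟨m, hm⟩ := frey_exists_b_pow P
  refine ⟨-(P.a ^ P.p) * m, ?_⟩
  rw [frey_a₄]
  have h : fB P = 32 * (m : Qb) := by
    simp only [fB]
    exact_mod_cast congrArg (Int.cast : ℤ → Qb) hm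
  rw [h]
  simp only [fA]
  push_cast
  ring

lemma frey_a₄_ne_zero : (P.freyCurve⁄Qb).a₄ ≠ 0 := by
  rw [frey_a₄]
  exact div_ne_zero (mul_ne_zero (neg_ne_zero.mpr (fA_ne_zero P)) (fB_ne_zero P)) (by norm_num)

variable {A : ValuationSubring Qb}

/-- The Frey curve has integral coefficients at every valuation ring of `ℚ̄`. -/
lemma frey_integral_all : IntegralCoeffs (P.freyCurve⁄Qb) A.valuation := by
  obtain ⟨k, hk⟩ := frey_a₂_int P
  obtain ⟨m, hm⟩ := frey_a₄_int P
  refine ⟨?_, ?_, ?_, ?_, ?_⟩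
  · rw [frey_a₁, map_one]
  · rw [hk]; exact val_int_le_one k
  · rw [frey_a₃, _root_.map_zero]; exact zero_le_one
  · rw [hm]; exact val_int_le_one _
  · rw [frey_a₆, _root_.map_zero]; exact zero_le_one

lemma frey_val_a₄_lt_one (hA : A.LiesOverPrime 2) : A.valuation (P.freyCurve⁄Qb).a₄ < 1 := by
  obtain ⟨m, hm⟩ := frey_a₄_int P
  rw [hm]
  exact val_int_lt_one hA ⟨m, by push_cast; ring⟩

lemma frey_val_b₂_eq_one (hA : A.LiesOverPrime 2) : A.valuation (fB P - fA P) = 1 := by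
  have h := val_int_eq_one hA Nat.prime_two (n := P.b ^ P.p - P.a ^ P.p)
    (by exact_mod_cast frey_b₂_odd P)
  have e : ((P.b ^ P.p - P.a ^ P.p : ℤ) : Qb) = fB P - fA P := by
    simp only [fA, fB]; push_cast; ring
  rwa [e] at h

lemma sigma_frey_a₄ (σ : Qb ≃ₐ[ℚ] Qb) :
    (σ : Qb →+* Qb) (P.freyCurve⁄Qb).a₄ = (P.freyCurve⁄Qb).a₄ := by
  obtain ⟨m, hm⟩ := frey_a₄_int P
  rw [hm]
  exact sigma_int σ _

/-- The node model of the Frey curve at `2`: node at `(0, 0)`, tangent slopes the roots of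
`t² + t - a₂`. -/
noncomputable def freyNode (hA : A.LiesOverPrime 2) (s : Qb) (hs : s ^ 2 = fB P - fA P) :
    NodeModel A.valuation (P.freyCurve⁄Qb) where
  e := 0
  f := 0
  γ₁ := (-1 + s) / 2
  γ₂ := (-1 - s) / 2
  a := (P.freyCurve⁄Qb).a₄
  h2tors := by rw [frey_a₃]; ring
  hon := by rw [frey_a₆]; ring
  hsum := by rw [frey_a₁]; ring
  hprod := by
    rw [frey_a₂]
    have h2 : (2 : Qb) ≠ 0 := by norm_num
    have h4 : (4 : Qb) ≠ 0 := by norm_num
    field_simp
    linear_combination (-4 : Qb) * hs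
  ha_def := by ring
  hδ := by
    have e : (-1 + s) / 2 - (-1 - s) / 2 = s := by ring
    rw [e]
    have h := frey_val_b₂_eq_one P hA
    rw [← hs, map_pow] at h
    exact (pow_left_inj (n := 2) two_ne_zero).mp (by rw [h, one_pow])
  ha := frey_val_a₄_lt_one P hA
  ha0 := frey_a₄_ne_zero P

/-- **(T4)** for every valuation ring over `2`. -/
theorem inertia_two_unipotent (A : ValuationSubring Qb) (hA : A.LiesOverPrime 2)
    (σ : Qb ≃ₐ[ℚ] Qb) (hσ : σ ∈ A.inertiaSubgroupIn ℚ)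
    (x : Submodule.torsionBy ℤ (P.freyCurve⁄Qb).Point P.p) :
    σ • (σ • x - x) = σ • x - x := by
  obtain ⟨pt, hpt⟩ := x
  apply Subtype.ext
  show Point.map (W' := P.freyCurve) σ.toAlgHom
      (Point.map (W' := P.freyCurve) σ.toAlgHom pt - pt) =
    Point.map (W' := P.freyCurve) σ.toAlgHom pt - pt
  have hP : P.p • pt = 0 := by
    have := (Submodule.mem_torsionBy_iff _ _).mp hpt
    rwa [natCast_zsmul] at this
  have hW : IntegralCoeffs (P.freyCurve⁄Qb) A.valuation := frey_integral_all P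
  have hp2 : (2 : ℕ) ≠ P.p := by have := P.hp5; omega
  have hp : A.valuation (P.p : Qb) = 1 := val_p_eq_one (P := P) hA Nat.prime_two hp2
  have hC1 : KerTorsionFree (P.freyCurve⁄Qb) A.valuation P.p := fun Q hQ hQ0 =>
    Fermat.Agent.S05.C1b.eq_zero_of_inKer_of_nsmul_eq_zero hW P.p hp Q hQ hQ0
  have hres := inertia_res A hσ
  have hτ : ∀ (x y : Qb) (h : (P.freyCurve⁄Qb).Nonsingular x y),
      ∃ h' : (P.freyCurve⁄Qb).Nonsingular ((σ : Qb →+* Qb) x) ((σ : Qb →+* Qb) y),
        Point.map (W' := P.freyCurve) σ.toAlgHom (Point.some x y h) =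
          Point.some ((σ : Qb →+* Qb) x) ((σ : Qb →+* Qb) y) h' := by
    intro x y h
    exact ⟨_, Point.map_some (W' := P.freyCurve) σ.toAlgHom h⟩
  obtain ⟨s, hs⟩ := IsAlgClosed.exists_pow_nat_eq (fB P - fA P) (n := 2) (by norm_num)
  have h0 : A.valuation (0 : Qb) ≤ 1 := by rw [_root_.map_zero]; exact zero_le_one
  exact (freyNode P hA s hs).unipotent hW h0 (σ := (σ : Qb →+* Qb)) hres
    (_root_.map_zero _) (_root_.map_zero _) (sigma_frey_a₄ P σ) _ hτ P.hp_odd hC1 pt hP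

end Fermat.Agent.S13.H365
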