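import Fermat.Agent.S13.H365.NodeKer

/-!
# Inertia acts unipotently on the odd torsion of a curve with nodal reduction

Abstract form of (T4): `K` a valued field, `W` an integral Weierstrass curve with a node
at `(e, f)` (a `NodeModel`), `σ` a field endomorphism acting trivially on the residue field
(`v z ≤ 1 → v (σ z - z) < 1`), `τ` the induced action on points.  Then for every `n`-torsion
point `P` (`n` odd, the kernel of reduction without `n`-torsion), `τ (τ P - P) = τ P - P`.
No hypothesis on `v 2`.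
-/

set_option autoImplicit false
set_option linter.unusedSectionVars false
set_option linter.unusedVariables false

namespace Fermat.Agent.S13.H365

open WeierstrassCurve WeierstrassCurve.Affine
open Fermat.Agent.S05.Comp (cls CompGroup)
open Fermat.Agent.S05.SameRed
open Fermat.Agent.S05.Assemble (KerTorsionFree val_y_le_one val_x_le_one_of_torsion)

variable {K : Type*} [Field K] [DecidableEq K] {Γ₀ : Type*} [LinearOrderedCommGroupWithZero Γ₀]
  {v : Valuation K Γ₀} {W : Affine K}

section sigma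

variable {σ : K →+* K} (hres : ∀ z, v z ≤ 1 → v (σ z - z) < 1)
include hres

lemma val_sigma_le_one {z : K} (hz : v z ≤ 1) : v (σ z) ≤ 1 := by
  have : σ z = z + (σ z - z) := by ring
  rw [this]; exact val_add_le_one hz (hres z hz).le

lemma val_sigma_lt_one {z : K} (hz : v z < 1) : v (σ z) < 1 := by
  have : σ z = z + (σ z - z) := by ring
  rw [this]; exact val_add_lt_one hz (hres z hz.le)

lemma val_sigma_eq_one {z : K} (hz : v z = 1) : v (σ z) = 1 := by
  have : σ z = z + (σ z - z) := by ring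
  rw [this, v.map_add_eq_of_lt_left (by rw [hz]; exact hres z hz.le), hz]

/-- Transfer of the branch condition. -/
lemma sign_sigma {γ ξ υ : K} (hγ : v γ ≤ 1) (hξ0 : ξ ≠ 0)
    (h : v (υ - γ * ξ) < v ξ) : v (σ υ - γ * σ ξ) < v (σ ξ) := by
  have hσξ0 : σ ξ ≠ 0 := (map_ne_zero σ).mpr hξ0
  have hpos : 0 < v ξ := (Valuation.pos_iff v).mpr hξ0
  have hpos' : 0 < v (σ ξ) := (Valuation.pos_iff v).mpr hσξ0
  have ht : v ((υ - γ * ξ) / ξ) < 1 := by
    rw [map_div₀]; exact (div_lt_one₀ hpos).mpr h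
  have ht' := val_sigma_lt_one hres ht
  rw [map_div₀, map_sub, map_mul, map_div₀, div_lt_one₀ hpos'] at ht'
  have hγ' : v ((σ γ - γ) * σ ξ) < v (σ ξ) := by
    rw [map_mul]
    exact mul_lt_of_lt_one_left hpos' (hres γ hγ)
  have : σ υ - γ * σ ξ = (σ υ - σ γ * σ ξ) + (σ γ - γ) * σ ξ := by ring
  rw [this]
  exact lt_of_le_of_lt (v.map_add _ _) (max_lt ht' hγ')

end sigma

namespace NodeModel

/-- **Step A**: the component of an odd torsion point is invariant under inertia. -/
theorem comp_sigma (M : NodeModel v W) (he : v M.e ≤ 1)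
    (hγ₁ : v M.γ₁ ≤ 1) (hγ₂ : v M.γ₂ ≤ 1)
    {σ : K →+* K} (hres : ∀ z, v z ≤ 1 → v (σ z - z) < 1)
    (hσe : σ M.e = M.e) (hσf : σ M.f = M.f) (hσa : σ M.a = M.a)
    {n : ℕ} (hn : Odd n) (hC1 : KerTorsionFree W v n) {x y : K}
    (h : W.Nonsingular x y) (hP : n • Point.some x y h = 0)
    (h' : W.Nonsingular (σ x) (σ y)) :
    M.comp (Point.some (σ x) (σ y) h') = M.comp (Point.some x y h) := by
  have hx : v x ≤ 1 := val_x_le_one_of_torsion hC1 h hP
  have hξ : v (x - M.e) ≤ 1 := val_sub_le_one hx he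
  have hσξ : σ x - M.e = σ (x - M.e) := by rw [map_sub, hσe]
  have hσυ : σ y - M.f = σ (y - M.f) := by rw [map_sub, hσf]
  rw [comp_some, comp_some, hσξ, hσυ]
  rcases le_or_gt 1 (v (x - M.e)) with hZ | hlt
  · have h1 : v (x - M.e) = 1 := le_antisymm hξ hZ
    rw [compN_of_Z hZ, compN_of_Z (val_sigma_eq_one hres h1).ge]
  · obtain ⟨hlo, j, hj⟩ := M.torsion_near_node hn h hP hlt
    have ha0 : v M.a ≠ 0 := (Valuation.ne_zero_iff v).mpr M.ha0
    have hapos : 0 < v M.a := zero_lt_iff.mpr ha0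
    have hξ0 : x - M.e ≠ 0 := (Valuation.ne_zero_iff v).mp (hapos.trans hlo).ne'
    -- `v (σ ξ) = v ξ`
    have hval : v (σ (x - M.e)) = v (x - M.e) := by
      have hu : v ((x - M.e) ^ n / M.a ^ (2 * j)) = 1 := by
        rw [map_div₀, map_pow, map_pow, hj]
        exact div_self (pow_ne_zero _ ha0)
      have hu' := val_sigma_eq_one hres hu
      rw [map_div₀, map_pow, map_pow, hσa, map_div₀, map_pow, map_pow,
        div_eq_one_iff_eq (pow_ne_zero _ ha0), ← hj] at hu'
      exact (pow_left_inj hn.pos.ne').mp hu'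
    have hlo' : v M.a < v (σ (x - M.e)) := by rw [hval]; exact hlo
    have hlt' : v (σ (x - M.e)) < 1 := by rw [hval]; exact hlt
    rcases sign_exists ((M.equation_iff x y).mp h.1) hlo hlt with hP1 | hN1
    · rw [compN_of_P hlo hlt hP1, compN_of_P hlo' hlt' (sign_sigma hres hγ₁ hξ0 hP1), hval]
    · rw [compN_of_N M.hδ hlo hlt hN1,
        compN_of_N M.hδ hlo' hlt' (sign_sigma hres hγ₂ hξ0 hN1), hval]

/-- **Step B**: a torsion point with nonsingular reduction is fixed by inertia. -/
theorem fixed_of_inE0 (M : NodeModel v W) (hW : IntegralCoeffs W v) (he : v M.e ≤ 1)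
    {σ : K →+* K} (hres : ∀ z, v z ≤ 1 → v (σ z - z) < 1)
    (τ : W.Point →+ W.Point)
    (hτ : ∀ (x y : K) (h : W.Nonsingular x y),
      ∃ h' : W.Nonsingular (σ x) (σ y), τ (Point.some x y h) = Point.some (σ x) (σ y) h')
    {n : ℕ} (hC1 : KerTorsionFree W v n) (D : W.Point) (hD : n • D = 0) (hE0 : M.InE0 D) :
    τ D = D := by
  rcases D with _ | ⟨x, y, h⟩
  · exact map_zero τ
  · have hx : v x ≤ 1 := val_x_le_one_of_torsion hC1 h hD
    have hy : v y ≤ 1 := val_y_le_one hW h.1 hx
    have hξ : v (x - M.e) = 1 := le_antisymm (val_sub_le_one hx he) hE0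
    have hns := M.nonsingular_red hW h.1 hx hy hξ
    obtain ⟨h', hτD⟩ := hτ x y h
    have hker := inKer_sub_of_same_reduction hW h h' hx hy (val_sigma_le_one hres hx)
      (val_sigma_le_one hres hy) (by rw [Valuation.map_sub_swap]; exact hres x hx)
      (by rw [Valuation.map_sub_swap]; exact hres y hy) hns
    have htors : n • (Point.some x y h - Point.some (σ x) (σ y) h') = 0 := by
      rw [smul_sub, hD, zero_sub, ← hτD, ← map_nsmul, hD, map_zero, neg_zero]
    have := hC1 _ hker htors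
    rw [hτD]
    exact (sub_eq_zero.mp this).symm

/-- **(T4), abstract form**: inertia acts unipotently on the `n`-torsion. -/
theorem unipotent (M : NodeModel v W) (hW : IntegralCoeffs W v) (he : v M.e ≤ 1)
    {σ : K →+* K} (hres : ∀ z, v z ≤ 1 → v (σ z - z) < 1)
    (hσe : σ M.e = M.e) (hσf : σ M.f = M.f) (hσa : σ M.a = M.a)
    (τ : W.Point →+ W.Point)
    (hτ : ∀ (x y : K) (h : W.Nonsingular x y),
      ∃ h' : W.Nonsingular (σ x) (σ y), τ (Point.some x y h) = Point.some (σ x) (σ y) h')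
    {n : ℕ} (hn : Odd n) (hC1 : KerTorsionFree W v n) (P : W.Point) (hP : n • P = 0) :
    τ (τ P - P) = τ P - P := by
  apply M.fixed_of_inE0 hW he hres τ hτ hC1
  · rw [smul_sub, hP, sub_zero, ← map_nsmul, hP, map_zero]
  · apply M.inE0_sub_of_comp_eq
    rcases P with _ | ⟨x, y, h⟩
    · have : τ (0 : W.Point) = 0 := map_zero τ
      change M.comp (τ 0) = M.comp 0
      rw [this]
    · obtain ⟨h', hτP⟩ := hτ x y h
      rw [hτP]
      exact M.comp_sigma he (M.val_γ₁_le_one hW he) (M.val_γ₂_le_one hW he) hres hσe hσf hσa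
        hn hC1 h hP h'

end NodeModel

end Fermat.Agent.S13.H365
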