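import Fermat.Agent.S13.H365.NodePoint
import Fermat.Agent.S05.AssembleCore

/-!
# Kernel of the component map, torsion near the node, nonsingularity away from the node

Everything is valid in every residue characteristic (no hypothesis on `v 2`).
-/

set_option autoImplicit false
set_option linter.unusedSectionVars false

namespace Fermat.Agent.S13.H365

open WeierstrassCurve WeierstrassCurve.Affine
open Fermat.Agent.S05.Comp (cls cls_mul cls_alpha_sq cls_alpha_mul_self cls_alpha_inv CompGroup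
  cls_alpha_ne_one exists_zpow_of_cls_eq_one exists_pow_of_zpow toU_pow toU)
open Fermat.Agent.S05.SameRed

variable {K : Type*} [Field K] {Γ₀ : Type*} [LinearOrderedCommGroupWithZero Γ₀]
  {v : Valuation K Γ₀}

/-- The class of an element strictly between `v a` and `1` is nontrivial. -/
lemma cls_ne_one_of_mid {a : K} (ha0 : a ≠ 0) (ha : v a < 1) {g : Γ₀} (hlo : v a < g)
    (hhi : g < 1) : cls v a g ≠ 1 := by
  intro h
  have h0 : v a ≠ 0 := (Valuation.ne_zero_iff v).mpr ha0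
  have hpos : 0 < v a := zero_lt_iff.mpr h0
  have hg0 : g ≠ 0 := (hpos.trans hlo).ne'
  have hsq0 : v a ^ 2 ≠ 0 := pow_ne_zero 2 h0
  have hsq1 : v a ^ 2 < 1 := pow_lt_one₀ zero_le ha (by norm_num)
  obtain ⟨k, hk⟩ := exists_zpow_of_cls_eq_one ha0 hg0 h
  obtain ⟨j, hj⟩ := exists_pow_of_zpow hsq0 hsq1 hhi hk
  rcases Nat.eq_zero_or_pos j with h0j | hjpos
  · rw [h0j, pow_zero] at hj
    exact hhi.ne hj
  · have h1 : (v a ^ 2) ^ j ≤ v a ^ 2 := pow_le_of_le_one zero_le hsq1.le hjpos.ne'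
    have h2 : v a ^ 2 < v a := by
      calc v a ^ 2 = v a * v a := pow_two _
        _ < v a * 1 := mul_lt_mul_of_pos_left ha hpos
        _ = v a := mul_one _
    rw [← hj] at h1
    exact absurd (h1.trans_lt h2) (not_lt.mpr hlo.le)

lemma cls_pow {a : K} {g : Γ₀} (hg : g ≠ 0) (n : ℕ) : cls v a (g ^ n) = cls v a g ^ n := by
  rw [cls, cls, toU_pow hg]; rfl

namespace NodeModel

variable {W : Affine K}

/-- The points with nonsingular reduction (relative to the node `(e, f)`). -/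
def InE0 (M : NodeModel v W) : W.Point → Prop
  | .zero => True
  | .some x _ _ => 1 ≤ v (x - M.e)

@[simp] lemma inE0_zero (M : NodeModel v W) : M.InE0 0 := trivial

@[simp] lemma inE0_some (M : NodeModel v W) {x y : K} (h : W.Nonsingular x y) :
    M.InE0 (Point.some x y h) ↔ 1 ≤ v (x - M.e) := Iff.rfl

lemma comp_some_eq_one_iff (M : NodeModel v W) {x y : K} (h : W.Nonsingular x y) :
    M.comp (Point.some x y h) = 1 ↔ 1 ≤ v (x - M.e) := by
  rw [M.comp_some]
  constructor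
  · intro hc
    by_contra hlt
    rw [not_le] at hlt
    rcases compN_cases M.hδ M.ha ((M.equation_iff x y).mp h.1) with ⟨hZ, -⟩ | ⟨hM, e⟩ |
      ⟨hlo, hhi, -, e⟩ | ⟨hlo, hhi, -, e⟩
    · exact absurd hZ (not_le.mpr hlt)
    · rw [e] at hc; exact cls_alpha_ne_one M.ha0 M.ha hc
    · rw [e] at hc; exact cls_ne_one_of_mid M.ha0 M.ha hlo hhi hc
    · rw [e, inv_eq_one] at hc; exact cls_ne_one_of_mid M.ha0 M.ha hlo hhi hc
  · intro hZ; exact compN_of_Z hZ

/-- **The kernel of the component map is `E₀`.** -/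
theorem comp_eq_one_iff (M : NodeModel v W) (P : W.Point) : M.comp P = 1 ↔ M.InE0 P := by
  rcases P with _ | ⟨x, y, h⟩
  · exact ⟨fun _ => trivial, fun _ => rfl⟩
  · exact M.comp_some_eq_one_iff h

variable [DecidableEq K]

/-- `E₀` is a subgroup: closed under addition. -/
theorem inE0_add (M : NodeModel v W) {P Q : W.Point} (hP : M.InE0 P) (hQ : M.InE0 Q) :
    M.InE0 (P + Q) := by
  rw [← comp_eq_one_iff] at *
  rw [M.comp_add, hP, hQ, one_mul]

theorem inE0_neg (M : NodeModel v W) {P : W.Point} (hP : M.InE0 P) : M.InE0 (-P) := by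
  rw [← comp_eq_one_iff] at *
  rw [M.comp_neg, hP, inv_one]

theorem inE0_sub (M : NodeModel v W) {P Q : W.Point} (hP : M.InE0 P) (hQ : M.InE0 Q) :
    M.InE0 (P - Q) := by
  rw [← comp_eq_one_iff] at *
  rw [M.comp_sub, hP, hQ, inv_one, one_mul]

/-- If two points have the same component, their difference lies in `E₀`. -/
theorem inE0_sub_of_comp_eq (M : NodeModel v W) {P Q : W.Point} (h : M.comp P = M.comp Q) :
    M.InE0 (P - Q) := by
  rw [← comp_eq_one_iff, M.comp_sub, h, mul_inv_cancel]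

/-- **(C3c) without `v 2 = 1`.** An odd-torsion point reducing to the node has `v (x - e)`
strictly between `v a` and `1`, and `v (x - e) ^ n` is an even power of `v a`. -/
theorem torsion_near_node (M : NodeModel v W) {n : ℕ} (hn : Odd n) {x y : K}
    (h : W.Nonsingular x y) (hP : n • Point.some x y h = 0) (hx : v (x - M.e) < 1) :
    v M.a < v (x - M.e) ∧ ∃ j : ℕ, v (x - M.e) ^ n = v M.a ^ (2 * j) := by
  have h0 : v M.a ≠ 0 := (Valuation.ne_zero_iff v).mpr M.ha0
  have hμ : 0 < v M.a := zero_lt_iff.mpr h0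
  have hc : M.comp (Point.some x y h) ^ n = 1 := by
    rw [← M.comp_nsmul, hP, comp_zero]
  rw [comp_some] at hc
  have hE := (M.equation_iff x y).mp h.1
  have hsq0 : v M.a ^ 2 ≠ 0 := pow_ne_zero 2 h0
  have hsq1 : v M.a ^ 2 < 1 := pow_lt_one₀ zero_le M.ha (by norm_num)
  have hnpos : 0 < n := hn.pos
  -- the main computation for a middle-range point
  have main : v M.a < v (x - M.e) → cls v M.a (v (x - M.e)) ^ n = 1 →
      ∃ j : ℕ, v (x - M.e) ^ n = v M.a ^ (2 * j) := by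
    intro hlo hcls
    have hr0 : v (x - M.e) ≠ 0 := (hμ.trans hlo).ne'
    have hrn0 : v (x - M.e) ^ n ≠ 0 := pow_ne_zero n hr0
    have hcls' : cls v M.a (v (x - M.e) ^ n) = 1 := by
      rw [cls_pow hr0, hcls]
    obtain ⟨k, hk⟩ := exists_zpow_of_cls_eq_one M.ha0 hrn0 hcls'
    have hlt : v (x - M.e) ^ n < 1 := pow_lt_one₀ zero_le hx hnpos.ne'
    obtain ⟨j, hj⟩ := exists_pow_of_zpow hsq0 hsq1 hlt hk
    exact ⟨j, by rw [hj, ← pow_mul]⟩
  rcases compN_cases M.hδ M.ha hE with ⟨hZ, -⟩ | ⟨hM, e⟩ | ⟨hlo, hhi, -, e⟩ |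
    ⟨hlo, hhi, -, e⟩
  · exact absurd hZ (not_le.mpr hx)
  · exfalso
    rw [e] at hc
    obtain ⟨m, rfl⟩ := hn
    have hsq : cls v M.a (v M.a) ^ 2 = 1 :=
      (pow_two _).trans (cls_alpha_mul_self v M.a M.ha0)
    rw [pow_succ, pow_mul, hsq, one_pow, one_mul] at hc
    exact cls_alpha_ne_one M.ha0 M.ha hc
  · rw [e] at hc
    exact ⟨hlo, main hlo hc⟩
  · rw [e, inv_pow, inv_eq_one] at hc
    exact ⟨hlo, main hlo hc⟩

/-- The tangent slopes of an integral model are integral. -/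
lemma val_γ₁_le_one (M : NodeModel v W) (hW : IntegralCoeffs W v) (he : v M.e ≤ 1) :
    v M.γ₁ ≤ 1 := by
  by_contra hcon
  rw [not_le] at hcon
  have h0 : (0 : Γ₀) < v M.γ₁ := lt_trans zero_lt_one hcon
  have hsq : M.γ₁ ^ 2 = -(W.a₁ * M.γ₁) + (W.a₂ + 3 * M.e) := by
    linear_combination M.γ₁ * M.hsum - M.hprod
  have h3 : v (3 : K) ≤ 1 := by
    have : (3 : K) = 2 + 1 := by norm_num
    rw [this]; exact val_add_le_one val_two_le_one (by rw [map_one])
  have hlt : v M.γ₁ < v (M.γ₁ ^ 2) := by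
    rw [map_pow, pow_two]; exact lt_mul_of_one_lt_left h0 hcon
  have hle : v (-(W.a₁ * M.γ₁) + (W.a₂ + 3 * M.e)) ≤ v M.γ₁ := by
    refine (v.map_add _ _).trans (max_le ?_ ?_)
    · rw [Valuation.map_neg, map_mul]; exact mul_le_of_le_one_left' hW.a₁
    · exact (val_add_le_one hW.a₂ (val_mul_le_one h3 he)).trans hcon.le
  rw [← hsq] at hle
  exact absurd hle (not_le.mpr hlt)

/-- The model with the two branches exchanged. -/
def swap (M : NodeModel v W) : NodeModel v W where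
  e := M.e
  f := M.f
  γ₁ := M.γ₂
  γ₂ := M.γ₁
  a := M.a
  h2tors := M.h2tors
  hon := M.hon
  hsum := by rw [add_comm]; exact M.hsum
  hprod := by rw [mul_comm]; exact M.hprod
  ha_def := M.ha_def
  hδ := by rw [Valuation.map_sub_swap]; exact M.hδ
  ha := M.ha
  ha0 := M.ha0

lemma val_γ₂_le_one (M : NodeModel v W) (hW : IntegralCoeffs W v) (he : v M.e ≤ 1) :
    v M.γ₂ ≤ 1 :=
  M.swap.val_γ₁_le_one hW he

omit [DecidableEq K] in
/-- First identity behind the nonsingularity lemma. -/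
lemma ns_id₁ (M : NodeModel v W) (x y : K) :
    (x - M.e) * ((M.γ₁ - M.γ₂) ^ 2 + 6 * (x - M.e)) =
      W.a₁ * (2 * y + W.a₁ * x + W.a₃)
        - 2 * (W.a₁ * y - (3 * x ^ 2 + 2 * W.a₂ * x + W.a₄)) - 2 * M.a := by
  rw [M.a₄_eq, M.a₃_eq, M.a₂_eq, M.a₁_eq]
  ring

omit [DecidableEq K] in
/-- Second identity behind the nonsingularity lemma. -/
lemma ns_id₂ (M : NodeModel v W) {x y : K} (h : W.Equation x y) :
    (x - M.e) ^ 2 * ((M.γ₁ - M.γ₂) ^ 2 + 4 * (x - M.e)) =
      (2 * y + W.a₁ * x + W.a₃) ^ 2 - 4 * M.a * (x - M.e) := by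
  have hE := (M.equation_iff x y).mp h
  rw [M.a₃_eq, M.a₁_eq]
  linear_combination (-4) * hE

/-- **Nonsingular reduction away from the node**: at an integral point whose `x`-coordinate
is not congruent to `e`, one of the two partial derivatives is a unit. -/
theorem nonsingular_red (M : NodeModel v W) (hW : IntegralCoeffs W v) {x y : K}
    (h : W.Equation x y) (hx : v x ≤ 1) (hy : v y ≤ 1) (hξ : v (x - M.e) = 1) :
    v (W.a₁ * y - (3 * x ^ 2 + 2 * W.a₂ * x + W.a₄)) = 1 ∨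
      v (2 * y + W.a₁ * x + W.a₃) = 1 := by
  have h2 : v (2 : K) ≤ 1 := val_two_le_one
  have h3 : v (3 : K) ≤ 1 := by
    have : (3 : K) = 2 + 1 := by norm_num
    rw [this]; exact val_add_le_one h2 (by rw [map_one])
  have h4 : v (4 : K) ≤ 1 := val_four_le_one
  have h6 : v (6 : K) ≤ 1 := by
    have : (6 : K) = 2 * 3 := by norm_num
    rw [this]; exact val_mul_le_one h2 h3
  have hX : v (W.a₁ * y - (3 * x ^ 2 + 2 * W.a₂ * x + W.a₄)) ≤ 1 := by
    apply val_sub_le_one (val_mul_le_one hW.a₁ hy)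
    apply val_add_le_one (val_add_le_one _ _) hW.a₄
    · exact val_mul_le_one h3 (by rw [map_pow]; exact pow_le_one' hx 2)
    · exact val_mul_le_one (val_mul_le_one h2 hW.a₂) hx
  have hY : v (2 * y + W.a₁ * x + W.a₃) ≤ 1 :=
    val_add_le_one (val_add_le_one (val_mul_le_one h2 hy) (val_mul_le_one hW.a₁ hx)) hW.a₃
  by_contra hcon
  rw [not_or] at hcon
  have hX' : v (W.a₁ * y - (3 * x ^ 2 + 2 * W.a₂ * x + W.a₄)) < 1 := lt_of_le_of_ne hX hcon.1
  have hY' : v (2 * y + W.a₁ * x + W.a₃) < 1 := lt_of_le_of_ne hY hcon.2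
  have hδ2 : v ((M.γ₁ - M.γ₂) ^ 2) = 1 := by rw [map_pow, M.hδ, one_pow]
  -- from the second identity: `δ² + 4 ξ` is small
  have s2 : v ((M.γ₁ - M.γ₂) ^ 2 + 4 * (x - M.e)) < 1 := by
    have hR : v ((2 * y + W.a₁ * x + W.a₃) ^ 2 - 4 * M.a * (x - M.e)) < 1 := by
      rw [sub_eq_add_neg]
      apply val_add_lt_one
      · rw [pow_two]; exact val_mul_lt_one_left hY' hY
      · rw [Valuation.map_neg]
        exact val_mul_lt_one_left (val_mul_lt_one_right h4 M.ha) hξ.le
    rw [← M.ns_id₂ h, map_mul, map_pow, hξ, one_pow, one_mul] at hR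
    exact hR
  -- from the first identity: `δ² + 6 ξ` is small
  have s1 : v ((M.γ₁ - M.γ₂) ^ 2 + 6 * (x - M.e)) < 1 := by
    have hR : v (W.a₁ * (2 * y + W.a₁ * x + W.a₃)
        - 2 * (W.a₁ * y - (3 * x ^ 2 + 2 * W.a₂ * x + W.a₄)) - 2 * M.a) < 1 := by
      rw [sub_eq_add_neg, sub_eq_add_neg]
      apply val_add_lt_one (val_add_lt_one _ _) _
      · exact val_mul_lt_one_right hW.a₁ hY'
      · rw [Valuation.map_neg]; exact val_mul_lt_one_right h2 hX'
      · rw [Valuation.map_neg]; exact val_mul_lt_one_right h2 M.ha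
    rw [← M.ns_id₁ x y, map_mul, hξ, one_mul] at hR
    exact hR
  -- hence `2 ξ` is small, so `2` is small, so `δ²` is small
  have s3 : v (2 * (x - M.e)) < 1 := by
    have : 2 * (x - M.e) = ((M.γ₁ - M.γ₂) ^ 2 + 6 * (x - M.e))
        + -((M.γ₁ - M.γ₂) ^ 2 + 4 * (x - M.e)) := by ring
    rw [this]
    exact val_add_lt_one s1 (by rwa [Valuation.map_neg])
  have s4 : v (4 * (x - M.e)) < 1 := by
    have : 4 * (x - M.e) = 2 * (2 * (x - M.e)) := by ring
    rw [this]; exact val_mul_lt_one_right h2 s3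
  have s5 : v ((M.γ₁ - M.γ₂) ^ 2) < 1 := by
    have : (M.γ₁ - M.γ₂) ^ 2 = ((M.γ₁ - M.γ₂) ^ 2 + 4 * (x - M.e)) + -(4 * (x - M.e)) := by
      ring
    rw [this]
    exact val_add_lt_one s2 (by rwa [Valuation.map_neg])
  rw [hδ2] at s5
  exact lt_irrefl _ s5

end NodeModel

end Fermat.Agent.S13.H365
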