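import Fermat.Agent.S13.H365.NodeXY
import Mathlib.AlgebraicGeometry.EllipticCurve.Affine.Point

/-!
# The component homomorphism at a node, valid in every residue characteristic

`W` is a Weierstrass curve over a valued field `K`, `(e, f)` is a point of `W` fixed by the
negation (`2 f + a₁ e + a₃ = 0`), and in the coordinates `ξ = x - e`, `υ = y - f` the equation
of `W` reads `(υ - γ₁ ξ) (υ - γ₂ ξ) = ξ³ + a ξ` with `v a < 1`, `a ≠ 0`, `v (γ₁ - γ₂) = 1`:
the reduction of `W` has a node at `(e, f)` with tangent slopes `γ₁ ≢ γ₂`.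
No hypothesis on `v 2` is made.
-/

set_option autoImplicit false

namespace Fermat.Agent.S13.H365

open WeierstrassCurve WeierstrassCurve.Affine
open Fermat.Agent.S05.Comp (cls cls_mul cls_alpha_sq cls_alpha_mul_self cls_alpha_inv CompGroup)

variable {K : Type*} [Field K] {Γ₀ : Type*} [LinearOrderedCommGroupWithZero Γ₀]

/-- A Weierstrass curve over a valued field together with a `2`-torsion point `(e, f)` at which
the reduction has a node with distinct tangent slopes `γ₁`, `γ₂`. -/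
structure NodeModel (v : Valuation K Γ₀) (W : Affine K) where
  /-- `x`-coordinate of the point reducing to the node -/
  e : K
  /-- `y`-coordinate of the point reducing to the node -/
  f : K
  /-- first tangent slope -/
  γ₁ : K
  /-- second tangent slope -/
  γ₂ : K
  /-- the smoothing parameter -/
  a : K
  h2tors : 2 * f + W.a₁ * e + W.a₃ = 0
  hon : f ^ 2 + W.a₁ * e * f + W.a₃ * f = e ^ 3 + W.a₂ * e ^ 2 + W.a₄ * e + W.a₆
  hsum : γ₁ + γ₂ = -W.a₁
  hprod : γ₁ * γ₂ = -(W.a₂ + 3 * e)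
  ha_def : a = 3 * e ^ 2 + 2 * W.a₂ * e + W.a₄ - W.a₁ * f
  hδ : v (γ₁ - γ₂) = 1
  ha : v a < 1
  ha0 : a ≠ 0

namespace NodeModel

variable {v : Valuation K Γ₀} {W : Affine K}

lemma a₁_eq (M : NodeModel v W) : W.a₁ = -(M.γ₁ + M.γ₂) := by
  linear_combination M.hsum

lemma a₂_eq (M : NodeModel v W) : W.a₂ = -(M.γ₁ * M.γ₂) - 3 * M.e := by
  linear_combination M.hprod

lemma a₃_eq (M : NodeModel v W) : W.a₃ = -2 * M.f + (M.γ₁ + M.γ₂) * M.e := by
  linear_combination M.h2tors - M.e * M.hsum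

lemma a₄_eq (M : NodeModel v W) :
    W.a₄ = M.a + 3 * M.e ^ 2 + 2 * (M.γ₁ * M.γ₂) * M.e - (M.γ₁ + M.γ₂) * M.f := by
  linear_combination -M.ha_def - 2 * M.e * M.hprod + M.f * M.hsum

lemma a₆_eq (M : NodeModel v W) :
    W.a₆ = M.f ^ 2 + W.a₁ * M.e * M.f + W.a₃ * M.f
      - (M.e ^ 3 + W.a₂ * M.e ^ 2 + W.a₄ * M.e) := by
  linear_combination -M.hon

/-- The Weierstrass equation in the coordinates centred at the node. -/
lemma key_id (M : NodeModel v W) (x y : K) :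
    (y - M.f - M.γ₁ * (x - M.e)) * (y - M.f - M.γ₂ * (x - M.e))
        - ((x - M.e) ^ 3 + M.a * (x - M.e)) =
      (y ^ 2 + W.a₁ * x * y + W.a₃ * y) - (x ^ 3 + W.a₂ * x ^ 2 + W.a₄ * x + W.a₆) := by
  rw [M.a₆_eq, M.a₄_eq, M.a₃_eq, M.a₂_eq, M.a₁_eq]
  ring

lemma equation_iff (M : NodeModel v W) (x y : K) :
    W.Equation x y ↔
      (y - M.f - M.γ₁ * (x - M.e)) * (y - M.f - M.γ₂ * (x - M.e))
        = (x - M.e) ^ 3 + M.a * (x - M.e) := by
  rw [Affine.equation_iff, ← sub_eq_zero, ← M.key_id x y, sub_eq_zero]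

lemma up_negY (M : NodeModel v W) (x y : K) :
    W.negY x y - M.f = -(y - M.f) + (M.γ₁ + M.γ₂) * (x - M.e) := by
  simp only [Affine.negY]
  rw [M.a₃_eq, M.a₁_eq]
  ring

end NodeModel

variable {v : Valuation K Γ₀}

lemma compN_neg {a γ₁ γ₂ x y : K} (hδ : v (γ₁ - γ₂) = 1) (ha : v a < 1) (ha0 : a ≠ 0)
    (hE : (y - γ₁ * x) * (y - γ₂ * x) = x ^ 3 + a * x) :
    compN v a γ₁ x (-y + (γ₁ + γ₂) * x) = (compN v a γ₁ x y)⁻¹ := by
  rcases compN_cases hδ ha hE with ⟨hZ, e⟩ | ⟨hM, e⟩ | ⟨hlo, hhi, hP, e⟩ |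
    ⟨hlo, hhi, hN, e⟩
  · rw [e, compN_of_Z hZ, inv_one]
  · rw [e, compN_of_M ha hM, cls_alpha_inv v a ha0]
  · rw [e]
    apply compN_of_N hδ hlo hhi
    have : -y + (γ₁ + γ₂) * x - γ₂ * x = -(y - γ₁ * x) := by ring
    rw [this, Valuation.map_neg]; exact hP
  · rw [e, inv_inv]
    apply compN_of_P hlo hhi
    have : -y + (γ₁ + γ₂) * x - γ₁ * x = -(y - γ₂ * x) := by ring
    rw [this, Valuation.map_neg]; exact hN

namespace NodeModel

variable {W : Affine K}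

/-- The component of a point. -/
noncomputable def comp (M : NodeModel v W) : W.Point → CompGroup v M.a
  | .zero => 1
  | .some x y _ => compN v M.a M.γ₁ (x - M.e) (y - M.f)

@[simp] lemma comp_zero (M : NodeModel v W) : M.comp 0 = 1 := rfl

lemma comp_some (M : NodeModel v W) {x y : K} (h : W.Nonsingular x y) :
    M.comp (.some x y h) = compN v M.a M.γ₁ (x - M.e) (y - M.f) := rfl

lemma comp_neg (M : NodeModel v W) (P : W.Point) : M.comp (-P) = (M.comp P)⁻¹ := by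
  rcases P with _ | ⟨x, y, h⟩
  · change M.comp 0 = (M.comp 0)⁻¹
    simp
  · rw [Point.neg_some, comp_some, comp_some, M.up_negY]
    exact compN_neg M.hδ M.ha M.ha0 ((M.equation_iff x y).mp h.1)

variable [DecidableEq K]

/-- The collinearity data attached to a sum of two affine points. -/
lemma coll_of_add (M : NodeModel v W) {x₁ y₁ x₂ y₂ : K} (h₁ : W.Equation x₁ y₁)
    (h₂ : W.Equation x₂ y₂) (hxy : ¬(x₁ = x₂ ∧ y₁ = W.negY x₂ y₂)) :
    Coll M.a M.γ₁ M.γ₂ (x₁ - M.e) (y₁ - M.f) (x₂ - M.e) (y₂ - M.f)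
      (W.addX x₁ x₂ (W.slope x₁ x₂ y₁ y₂) - M.e)
      (W.negAddY x₁ x₂ y₁ (W.slope x₁ x₂ y₁ y₂) - M.f)
      (W.slope x₁ x₂ y₁ y₂)
      (y₁ - M.f - W.slope x₁ x₂ y₁ y₂ * (x₁ - M.e)) := by
  set ℓ := W.slope x₁ x₂ y₁ y₂ with hℓ
  -- the line passes through the second point
  have hline : y₂ = ℓ * (x₂ - x₁) + y₁ := by
    by_cases hx : x₁ = x₂
    · have hy : y₁ ≠ W.negY x₂ y₂ := fun h => hxy ⟨hx, h⟩
      have := Y_eq_of_Y_ne h₁ h₂ hx hy
      rw [hx, this]; ring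
    · rw [hℓ, slope_of_X_ne hx]
      have : x₁ - x₂ ≠ 0 := sub_ne_zero.mpr hx
      field_simp
      ring
  -- Vieta
  have hV := addPolynomial_slope h₁ h₂ hxy
  rw [addPolynomial_eq, neg_inj, Cubic.prod_X_sub_C_eq, Cubic.toPoly_injective] at hV
  have hVc := congrArg Cubic.c hV
  have hVd := congrArg Cubic.d hV
  simp only at hVc hVd
  rw [← hℓ] at hVc hVd
  have hE3 : W.Equation (W.addX x₁ x₂ ℓ) (W.negAddY x₁ x₂ y₁ ℓ) := equation_negAdd h₁ h₂ hxy
  refine ⟨?_, ?_, ?_, (M.equation_iff _ _).mp h₁, (M.equation_iff _ _).mp h₂,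
    (M.equation_iff _ _).mp hE3, ?_, ?_, ?_⟩
  · ring
  · rw [hline]; ring
  · simp only [negAddY]
    ring
  · simp only [addX]
    rw [M.a₂_eq, M.a₁_eq]
    ring
  · have e1 : (x₁ - M.e) * (x₂ - M.e) + (x₁ - M.e) * (W.addX x₁ x₂ ℓ - M.e) +
        (x₂ - M.e) * (W.addX x₁ x₂ ℓ - M.e) =
        (x₁ * x₂ + x₁ * W.addX x₁ x₂ ℓ + x₂ * W.addX x₁ x₂ ℓ)
          - 2 * M.e * (x₁ + x₂ + W.addX x₁ x₂ ℓ) + 3 * M.e ^ 2 := by ring
    rw [e1, ← hVc]
    simp only [addX]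
    rw [M.a₄_eq, M.a₃_eq, M.a₂_eq, M.a₁_eq]
    ring
  · have e1 : (x₁ - M.e) * (x₂ - M.e) * (W.addX x₁ x₂ ℓ - M.e) =
        -(-(x₁ * x₂ * W.addX x₁ x₂ ℓ))
          - M.e * (x₁ * x₂ + x₁ * W.addX x₁ x₂ ℓ + x₂ * W.addX x₁ x₂ ℓ)
          + M.e ^ 2 * (x₁ + x₂ + W.addX x₁ x₂ ℓ) - M.e ^ 3 := by ring
    rw [e1, ← hVc, ← hVd]
    simp only [addX]
    rw [M.a₆_eq, M.a₄_eq, M.a₃_eq, M.a₂_eq, M.a₁_eq]
    ring

/-- **The component map is additive.** -/
theorem comp_add (M : NodeModel v W) (P Q : W.Point) :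
    M.comp (P + Q) = M.comp P * M.comp Q := by
  rcases P with _ | ⟨x₁, y₁, h₁⟩
  · change M.comp (0 + Q) = M.comp 0 * M.comp Q
    rw [zero_add, comp_zero, one_mul]
  rcases Q with _ | ⟨x₂, y₂, h₂⟩
  · change M.comp (_ + 0) = M.comp _ * M.comp 0
    rw [add_zero, comp_zero, mul_one]
  by_cases hxy : x₁ = x₂ ∧ y₁ = W.negY x₂ y₂
  · rw [Point.add_of_Y_eq hxy.1 hxy.2, comp_zero]
    have : Point.some x₁ y₁ h₁ = -Point.some x₂ y₂ h₂ := by
      rw [Point.neg_some]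
      obtain ⟨rfl, rfl⟩ := hxy
      rfl
    rw [this, comp_neg, inv_mul_cancel]
  · rw [Point.add_some hxy, comp_some, comp_some, comp_some]
    have hc := M.coll_of_add h₁.1 h₂.1 hxy
    have h3 := compN_mul hc M.hδ M.ha M.ha0
    rw [addY, M.up_negY, compN_neg M.hδ M.ha M.ha0 hc.E3]
    exact (mul_eq_one_iff_eq_inv.mp h3).symm

/-- The component map as a homomorphism. -/
noncomputable def compHom (M : NodeModel v W) : W.Point →+ Additive (CompGroup v M.a) where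
  toFun P := Additive.ofMul (M.comp P)
  map_zero' := rfl
  map_add' P Q := by
    rw [M.comp_add P Q]; rfl

lemma comp_nsmul (M : NodeModel v W) (k : ℕ) (P : W.Point) :
    M.comp (k • P) = M.comp P ^ k := by
  induction k with
  | zero => simp
  | succ k ih =>
    rw [succ_nsmul, comp_add, ih]
    exact (pow_succ _ _).symm

lemma comp_sub (M : NodeModel v W) (P Q : W.Point) :
    M.comp (P - Q) = M.comp P * (M.comp Q)⁻¹ := by
  rw [sub_eq_add_neg, comp_add, comp_neg]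

end NodeModel

end Fermat.Agent.S13.H365
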