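import Fermat.Agent.S13.H365.NodeCore
import Fermat.Agent.S05.CompTorsion

/-!
# The component map on coordinates (any residue characteristic)

We reuse the component group `Comp.CompGroup v a = Γ₀ˣ ⧸ ⟨v(a)²⟩` of the landed `S05` files.
-/

set_option autoImplicit false

namespace Fermat.Agent.S13.H365

open Fermat.Agent.S05 (Comp.CompGroup Comp.cls Comp.toU)
open Fermat.Agent.S05.Comp (cls cls_mul cls_alpha_sq cls_alpha_mul_self cls_alpha_inv CompGroup)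

variable {K : Type*} [Field K] {Γ₀ : Type*} [LinearOrderedCommGroupWithZero Γ₀]

variable (v : Valuation K Γ₀)

/-- The component of a point with coordinates `(x, y)` on `(y - γ₁ x)(y - γ₂ x) = x³ + a x`,
relative to the branch `y ≡ γ₁ x`. -/
noncomputable def compN (a γ₁ : K) (x y : K) : CompGroup v a :=
  if 1 ≤ v x then 1
  else if v x ≤ v a then cls v a (v a)
  else if v (y - γ₁ * x) < v x then cls v a (v x)
  else (cls v a (v x))⁻¹

variable {v}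
variable {a γ₁ γ₂ x₁ y₁ x₂ y₂ x₃ y₃ l n : K}

lemma compN_of_Z {x y : K} (h : 1 ≤ v x) : compN v a γ₁ x y = 1 := by
  simp [compN, h]

lemma compN_of_M {x y : K} (ha : v a < 1) (h : v x ≤ v a) :
    compN v a γ₁ x y = cls v a (v a) := by
  have : ¬ 1 ≤ v x := not_le.mpr (h.trans_lt ha)
  simp [compN, this, h]

lemma compN_of_P {x y : K} (hlo : v a < v x) (hhi : v x < 1)
    (hP : v (y - γ₁ * x) < v x) : compN v a γ₁ x y = cls v a (v x) := by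
  simp [compN, not_le.mpr hhi, not_le.mpr hlo, hP]

lemma compN_of_N {x y : K} (hδ : v (γ₁ - γ₂) = 1)
    (hlo : v a < v x) (hhi : v x < 1)
    (hN : v (y - γ₂ * x) < v x) : compN v a γ₁ x y = (cls v a (v x))⁻¹ := by
  have hP : ¬ v (y - γ₁ * x) < v x := fun hP => sign_exclusive hδ ⟨hP, hN⟩
  simp [compN, not_le.mpr hhi, not_le.mpr hlo, hP]

/-- The four types of points. -/
lemma compN_cases {x y : K} (hδ : v (γ₁ - γ₂) = 1) (ha : v a < 1)
    (hE : (y - γ₁ * x) * (y - γ₂ * x) = x ^ 3 + a * x) :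
    (1 ≤ v x ∧ compN v a γ₁ x y = 1) ∨
    (v x ≤ v a ∧ compN v a γ₁ x y = cls v a (v a)) ∨
    (v a < v x ∧ v x < 1 ∧ v (y - γ₁ * x) < v x ∧ compN v a γ₁ x y = cls v a (v x)) ∨
    (v a < v x ∧ v x < 1 ∧ v (y - γ₂ * x) < v x ∧
      compN v a γ₁ x y = (cls v a (v x))⁻¹) := by
  rcases le_or_gt 1 (v x) with hZ | hhi
  · exact Or.inl ⟨hZ, compN_of_Z hZ⟩
  rcases le_or_gt (v x) (v a) with hM | hlo
  · exact Or.inr (Or.inl ⟨hM, compN_of_M ha hM⟩)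
  rcases sign_exists hE hlo hhi with hP | hN
  · exact Or.inr (Or.inr (Or.inl ⟨hlo, hhi, hP, compN_of_P hlo hhi hP⟩))
  · exact Or.inr (Or.inr (Or.inr ⟨hlo, hhi, hN, compN_of_N hδ hlo hhi hN⟩))

lemma hδ_symm (hδ : v (γ₁ - γ₂) = 1) : v (γ₂ - γ₁) = 1 := by
  rw [Valuation.map_sub_swap]; exact hδ

/-- Two points at the node, third away: the components cancel. -/
lemma core_two (h : Coll a γ₁ γ₂ x₁ y₁ x₂ y₂ x₃ y₃ l n) (hδ : v (γ₁ - γ₂) = 1) (ha : v a < 1)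
    (ha0 : a ≠ 0)
    (h1 : v x₁ < 1) (h2' : v x₂ < 1) (h3 : 1 ≤ v x₃) :
    compN v a γ₁ x₁ y₁ * compN v a γ₁ x₂ y₂ = 1 := by
  have hμ : 0 < v a := by rw [Valuation.pos_iff]; exact ha0
  rcases compN_cases hδ ha h.E1 with ⟨hZ, -⟩ | ⟨hM1, e1⟩ | ⟨hlo1, hhi1, hP1, e1⟩ |
    ⟨hlo1, hhi1, hN1, e1⟩
  · exact absurd hZ (not_le.mpr h1)
  · rcases compN_cases hδ ha h.E2 with ⟨hZ, -⟩ | ⟨hM2, e2⟩ | ⟨hlo2, hhi2, hP2, e2⟩ |
      ⟨hlo2, hhi2, hN2, e2⟩
    · exact absurd hZ (not_le.mpr h2')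
    · rw [e1, e2]; exact cls_alpha_mul_self v a ha0
    · exact (factD h hδ (hM1.trans_lt hlo2) (h1.trans_le h3) (hhi2.le.trans h3) h3
        (hlo2.trans_le (le_mul_of_one_le_right (hμ.trans hlo2).le h3))).elim
    · exact (factD h hδ (hM1.trans_lt hlo2) (h1.trans_le h3) (hhi2.le.trans h3) h3
        (hlo2.trans_le (le_mul_of_one_le_right (hμ.trans hlo2).le h3))).elim
  all_goals
    rcases compN_cases hδ ha h.E2 with ⟨hZ, -⟩ | ⟨hM2, e2⟩ | ⟨hlo2, hhi2, hP2, e2⟩ |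
      ⟨hlo2, hhi2, hN2, e2⟩
    · exact absurd hZ (not_le.mpr h2')
    · exact (factD h.swap12 hδ (hM2.trans_lt hlo1) (h2'.trans_le h3) (hhi1.le.trans h3) h3
        (hlo1.trans_le (le_mul_of_one_le_right (hμ.trans hlo1).le h3))).elim
  all_goals
    have h12 : v x₁ = v x₂ := by
      rcases lt_trichotomy (v x₁) (v x₂) with hlt | heq | hgt
      · exact (factD h hδ hlt (h1.trans_le h3) (hhi2.le.trans h3) h3
          (hlo2.trans_le (le_mul_of_one_le_right (hμ.trans hlo2).le h3))).elim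
      · exact heq
      · exact (factD h.swap12 hδ hgt (h2'.trans_le h3) (hhi1.le.trans h3) h3
          (hlo1.trans_le (le_mul_of_one_le_right (hμ.trans hlo1).le h3))).elim
    have hx1 : x₁ ≠ 0 := (Valuation.ne_zero_iff v).mp (hμ.trans hlo1).ne'
  · exact (factBsign h hδ h12 h1 hx1 h3 hP1 hP2).elim
  · rw [e1, e2, h12]; exact mul_inv_cancel _
  · rw [e1, e2, h12]; exact inv_mul_cancel _
  · exact (factBsign h.swapγ (hδ_symm hδ) h12 h1 hx1 h3 hN1 hN2).elim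

/-- All three points at the node, the first one in the `M`-range. -/
lemma core_three_M (h : Coll a γ₁ γ₂ x₁ y₁ x₂ y₂ x₃ y₃ l n) (hδ : v (γ₁ - γ₂) = 1)
    (ha : v a < 1) (ha0 : a ≠ 0)
    (h1 : v x₁ ≤ v a) (h2' : v x₂ < 1) (h3 : v x₃ < 1) :
    compN v a γ₁ x₁ y₁ * compN v a γ₁ x₂ y₂ * compN v a γ₁ x₃ y₃ = 1 := by
  have hμ : 0 < v a := by rw [Valuation.pos_iff]; exact ha0
  have e1 : compN v a γ₁ x₁ y₁ = cls v a (v a) := compN_of_M ha h1
  rcases compN_cases hδ ha h.E2 with ⟨hZ, -⟩ | ⟨hM2, e2⟩ | ⟨hlo2, hhi2, hP2, e2⟩ |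
    ⟨hlo2, hhi2, hN2, e2⟩
  · exact absurd hZ (not_le.mpr h2')
  · exact (factMMmid h hδ ha ha0 h1 hM2 h3).elim
  all_goals
    rcases compN_cases hδ ha h.E3 with ⟨hZ, -⟩ | ⟨hM3, e3⟩ | ⟨hlo3, hhi3, hP3, e3⟩ |
      ⟨hlo3, hhi3, hN3, e3⟩
    · exact absurd hZ (not_le.mpr h3)
    · exact (factMMmid h.swap23 hδ ha ha0 h1 hM3 h2').elim
  all_goals
    have hval := factA'_val h hδ ha ha0 h1 hlo2 hhi2 hlo3 hhi3
    have hne2 : v x₂ ≠ 0 := (hμ.trans hlo2).ne'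
    have hne3 : v x₃ ≠ 0 := (hμ.trans hlo3).ne'
  · rw [e1, e2, e3, mul_assoc, ← cls_mul v a hne2 hne3, hval]
    exact cls_alpha_mul_self v a ha0
  · exact (factA'_sign h hδ ha ha0 h1 hlo2 hhi2 hlo3 hhi3 hP2 hN3).elim
  · exact (factA'_sign h.swapγ (hδ_symm hδ) ha ha0 h1 hlo2 hhi2 hlo3 hhi3 hN2 hP3).elim
  · rw [e1, e2, e3, mul_assoc, ← mul_inv, ← cls_mul v a hne2 hne3, hval]
    exact mul_inv_cancel _

/-- All three points in the middle range. -/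
lemma core_three_mid (h : Coll a γ₁ γ₂ x₁ y₁ x₂ y₂ x₃ y₃ l n) (hδ : v (γ₁ - γ₂) = 1)
    (ha0 : a ≠ 0)
    (h1lo : v a < v x₁) (h1hi : v x₁ < 1)
    (h2lo : v a < v x₂) (h2hi : v x₂ < 1) (h3lo : v a < v x₃) (h3hi : v x₃ < 1) :
    compN v a γ₁ x₁ y₁ * compN v a γ₁ x₂ y₂ * compN v a γ₁ x₃ y₃ = 1 := by
  have hμ : 0 < v a := by rw [Valuation.pos_iff]; exact ha0
  have hne1 : v x₁ ≠ 0 := (hμ.trans h1lo).ne'
  have hne2 : v x₂ ≠ 0 := (hμ.trans h2lo).ne'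
  have hne3 : v x₃ ≠ 0 := (hμ.trans h3lo).ne'
  have hδ' := hδ_symm hδ
  rcases sign_exists h.E1 h1lo h1hi with hP1 | hN1 <;>
  rcases sign_exists h.E2 h2lo h2hi with hP2 | hN2 <;>
  rcases sign_exists h.E3 h3lo h3hi with hP3 | hN3
  · -- PPP
    rw [compN_of_P h1lo h1hi hP1, compN_of_P h2lo h2hi hP2, compN_of_P h3lo h3hi hP3,
      ← cls_mul v a hne1 hne2, ← cls_mul v a (mul_ne_zero hne1 hne2) hne3,
      factA_same h hδ h1lo h1hi h2lo h2hi h3lo h3hi hP1 hP2 hP3]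
    exact cls_alpha_sq v a ha0
  · -- PPN
    rw [compN_of_P h1lo h1hi hP1, compN_of_P h2lo h2hi hP2,
      compN_of_N hδ h3lo h3hi hN3,
      factA_mixed h hδ h1lo h1hi h2lo h2hi h3lo h3hi hP1 hP2 hN3,
      ← cls_mul v a hne1 hne2]
    exact mul_inv_cancel _
  · -- PNP
    rw [compN_of_P h1lo h1hi hP1, compN_of_N hδ h2lo h2hi hN2,
      compN_of_P h3lo h3hi hP3,
      factA_mixed h.swap23 hδ h1lo h1hi h3lo h3hi h2lo h2hi hP1 hP3 hN2,
      cls_mul v a hne1 hne3, mul_right_comm]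
    exact mul_inv_cancel _
  · -- PNN
    have := factA_mixed h.rot.swapγ hδ' h2lo h2hi h3lo h3hi h1lo h1hi hN2 hN3 hP1
    rw [compN_of_P h1lo h1hi hP1, compN_of_N hδ h2lo h2hi hN2,
      compN_of_N hδ h3lo h3hi hN3, this, cls_mul v a hne2 hne3, mul_assoc, ← mul_inv]
    exact mul_inv_cancel _
  · -- NPP
    have := factA_mixed h.rot hδ h2lo h2hi h3lo h3hi h1lo h1hi hP2 hP3 hN1
    rw [compN_of_N hδ h1lo h1hi hN1, compN_of_P h2lo h2hi hP2,
      compN_of_P h3lo h3hi hP3, this, cls_mul v a hne2 hne3, mul_assoc]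
    exact inv_mul_cancel _
  · -- NPN
    have := factA_mixed h.swap23.swapγ hδ' h1lo h1hi h3lo h3hi h2lo h2hi hN1 hN3 hP2
    rw [compN_of_N hδ h1lo h1hi hN1, compN_of_P h2lo h2hi hP2,
      compN_of_N hδ h3lo h3hi hN3, this, cls_mul v a hne1 hne3, mul_right_comm,
      ← mul_inv]
    exact inv_mul_cancel _
  · -- NNP
    have := factA_mixed h.swapγ hδ' h1lo h1hi h2lo h2hi h3lo h3hi hN1 hN2 hP3
    rw [compN_of_N hδ h1lo h1hi hN1, compN_of_N hδ h2lo h2hi hN2,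
      compN_of_P h3lo h3hi hP3, this, cls_mul v a hne1 hne2, ← mul_inv]
    exact inv_mul_cancel _
  · -- NNN
    have := factA_same h.swapγ hδ' h1lo h1hi h2lo h2hi h3lo h3hi hN1 hN2 hN3
    rw [compN_of_N hδ h1lo h1hi hN1, compN_of_N hδ h2lo h2hi hN2,
      compN_of_N hδ h3lo h3hi hN3, ← mul_inv, ← mul_inv,
      ← cls_mul v a hne1 hne2, ← cls_mul v a (mul_ne_zero hne1 hne2) hne3, this,
      cls_alpha_sq v a ha0, inv_one]

/-- **Core theorem**: the components of three collinear points multiply to `1`. -/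
theorem compN_mul (h : Coll a γ₁ γ₂ x₁ y₁ x₂ y₂ x₃ y₃ l n) (hδ : v (γ₁ - γ₂) = 1)
    (ha : v a < 1) (ha0 : a ≠ 0) :
    compN v a γ₁ x₁ y₁ * compN v a γ₁ x₂ y₂ * compN v a γ₁ x₃ y₃ = 1 := by
  rcases le_or_gt 1 (v x₁) with hZ1 | h1 <;>
  rcases le_or_gt 1 (v x₂) with hZ2 | h2' <;>
  rcases le_or_gt 1 (v x₃) with hZ3 | h3
  · rw [compN_of_Z hZ1, compN_of_Z hZ2, compN_of_Z hZ3]; simp
  · exact (factC h.swap13 hδ ha h3 hZ2 hZ1).elim
  · exact (factC h.swap12 hδ ha h2' hZ1 hZ3).elim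
  · rw [compN_of_Z hZ1, one_mul]
    exact core_two h.rot hδ ha ha0 h2' h3 hZ1
  · exact (factC h hδ ha h1 hZ2 hZ3).elim
  · rw [compN_of_Z hZ2, mul_one]
    exact core_two h.swap23 hδ ha ha0 h1 h3 hZ2
  · rw [compN_of_Z hZ3, mul_one]
    exact core_two h hδ ha ha0 h1 h2' hZ3
  · rcases le_or_gt (v x₁) (v a) with hM1 | hlo1
    · exact core_three_M h hδ ha ha0 hM1 h2' h3
    rcases le_or_gt (v x₂) (v a) with hM2 | hlo2
    · have := core_three_M h.swap12 hδ ha ha0 hM2 h1 h3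
      rw [mul_comm (compN v a γ₁ x₁ y₁)]; exact this
    rcases le_or_gt (v x₃) (v a) with hM3 | hlo3
    · have := core_three_M h.rot' hδ ha ha0 hM3 h1 h2'
      rw [mul_comm, ← mul_assoc]; exact this
    exact core_three_mid h hδ ha0 hlo1 h1 hlo2 h2' hlo3 h3

end Fermat.Agent.S13.H365
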